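import Mathlib

/-!
# P-SS row 963 (SS-HM-BASICS), generic part (Mathlib only)

If `y` is integral over `R₀`, `2` is invertible in `R₀` and
`y h⁴ (h + 16) = (h² + 256 h + 4096)³` in a field `E`, then `h` and `1 / (h (h + 16))` are
integral over `R₀`:
* `h` is a root of `(T² + 256 T + 4096)³ - y T⁴ (T + 16)`;
* `4096 / h` is a root of `(T² + 256 T + 4096)³ - 2¹⁶ y T (T + 256)`;
* `256 / (h + 16)` is a root of `(T² + 224 T + 256)³ - y T (T - 16)⁴`.
-/

set_option autoImplicit false
set_option linter.unusedSectionVars false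
set_option linter.style.haveILetI false
set_option maxHeartbeats 1000000

noncomputable section

namespace Fermat.Agent.H48.SSHaupt

open Polynomial

section Generic

variable {R₀ E : Type*} [CommRing R₀] [Field E] [Algebra R₀ E]

/-- A root of a monic polynomial with coefficients integral over `R₀` is integral over `R₀`. -/
theorem isIntegral_of_monic_root (z : E) (p : (integralClosure R₀ E)[X]) (hp : p.Monic)
    (hz : eval₂ (algebraMap (integralClosure R₀ E) E) z p = 0) : IsIntegral R₀ z :=
  isIntegral_trans (A := integralClosure R₀ E) z ⟨p, hp, hz⟩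

theorem isIntegral_haupt (y h : E) (hy : IsIntegral R₀ y)
    (hrel : y * h ^ 4 * (h + 16) = (h ^ 2 + 256 * h + 4096) ^ 3) : IsIntegral R₀ h := by
  set yB : integralClosure R₀ E := ⟨y, hy⟩ with hyB
  refine isIntegral_of_monic_root h
    ((X ^ 2 + C 256 * X + C 4096) ^ 3 - C yB * X ^ 4 * (X + C 16)) (by monicity!) ?_
  simp only [eval₂_sub, eval₂_pow, eval₂_add, eval₂_mul, eval₂_X, eval₂_C, eval₂_ofNat, map_ofNat]
  have : algebraMap (integralClosure R₀ E) E yB = y := rfl
  rw [this]
  linear_combination -hrel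

theorem isIntegral_haupt_inv (y h : E) (hy : IsIntegral R₀ y) (h0 : h ≠ 0)
    (hrel : y * h ^ 4 * (h + 16) = (h ^ 2 + 256 * h + 4096) ^ 3) :
    IsIntegral R₀ (4096 / h) := by
  set yB : integralClosure R₀ E := ⟨y, hy⟩ with hyB
  refine isIntegral_of_monic_root (4096 / h)
    ((X ^ 2 + C 256 * X + C 4096) ^ 3 - C (65536 * yB) * X * (X + C 256)) (by monicity!) ?_
  simp only [eval₂_sub, eval₂_pow, eval₂_add, eval₂_mul, eval₂_X, eval₂_C, eval₂_ofNat, map_ofNat, map_mul]
  have : algebraMap (integralClosure R₀ E) E yB = y := rfl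
  rw [this]
  field_simp
  linear_combination (-68719476736 : E) * hrel

theorem isIntegral_haupt_inv' (y h : E) (hy : IsIntegral R₀ y) (h16 : h + 16 ≠ 0)
    (hrel : y * h ^ 4 * (h + 16) = (h ^ 2 + 256 * h + 4096) ^ 3) :
    IsIntegral R₀ (256 / (h + 16)) := by
  set yB : integralClosure R₀ E := ⟨y, hy⟩ with hyB
  refine isIntegral_of_monic_root (256 / (h + 16))
    ((X ^ 2 + C 224 * X + C 256) ^ 3 - C yB * X * (X - C 16) ^ 4) (by monicity!) ?_
  simp only [eval₂_sub, eval₂_pow, eval₂_add, eval₂_mul, eval₂_X, eval₂_C, eval₂_ofNat, map_ofNat]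
  have : algebraMap (integralClosure R₀ E) E yB = y := rfl
  rw [this]
  field_simp
  linear_combination (-16777216 : E) * hrel

/-- `h` and `1 / (h (h + 16))` are integral over `R₀`. -/
theorem isIntegral_haupt_unit (c : R₀) (hc : c * 2 ^ 20 = 1) (y h : E) (hy : IsIntegral R₀ y)
    (h0 : h ≠ 0) (h16 : h + 16 ≠ 0)
    (hrel : y * h ^ 4 * (h + 16) = (h ^ 2 + 256 * h + 4096) ^ 3) :
    IsIntegral R₀ h ∧ ∃ u : E, IsIntegral R₀ u ∧ u * (h * (h + 16)) = 1 := by
  refine ⟨isIntegral_haupt y h hy hrel,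
    algebraMap R₀ E c * ((4096 / h) * (256 / (h + 16))), ?_, ?_⟩
  · exact isIntegral_algebraMap.mul
      ((isIntegral_haupt_inv y h hy h0 hrel).mul (isIntegral_haupt_inv' y h hy h16 hrel))
  · have h1 : algebraMap R₀ E c * 2 ^ 20 = 1 := by
      have := congrArg (algebraMap R₀ E) hc
      rw [map_mul, map_pow, map_ofNat, map_one] at this
      exact this
    field_simp
    linear_combination h1

end Generic

end Fermat.Agent.H48.SSHaupt
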