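import Mathlib
import Fermat.Agent.H8.SS.CrossInterfaces
import Fermat.Agent.H66.SS.ModelIntegral
import Fermat.Agent.H2.KLBRModel
import Fermat.Agent.H22.ES.KLFinalJ
import Fermat.Agent.H48.SS.HauptGeneric

/-!
# P-SS row 963 (SS-HM-BASICS): `ModelHauptBasicsStatement M q`

`H = α(H_M)`, `H_q = β(H_M)` for the Hauptmodul `H_M` of level `4 ∣ M` in the model field of
level `M`; `j(t^q) = β(j) = W j` is integral over `A₀[j]`; the relation
`j H⁴ (H + 16) = (H² + 256 H + 4096)³` (and its image under `β`) gives the integrality of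
`H`, `H_q` and of `1 / (H (H + 16))`, `1 / (H_q (H_q + 16))` (`2` is a unit of `A₀`).
-/

set_option autoImplicit false
set_option linter.unusedSectionVars false
set_option linter.style.haveILetI false
set_option maxHeartbeats 1000000

noncomputable section

namespace Fermat.Agent.H48.SSHaupt

open Polynomial ModularCurve AlgebraicCurve
open Fermat.Agent.H22.KL Fermat.Agent.H82.SS Fermat.Agent.H8.SS

/-- **SS-HM-BASICS** (row 963). -/
theorem modelHauptBasics (M q : ℕ) [NeZero M] [NeZero q] (h4 : 4 ∣ M) (hq : q.Prime)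
    (hq2 : q ≠ 2) (_hqM : ¬ q ∣ M) : ModelHauptBasicsStatement M q := by
  intro K₁ _ _ _ A₀ _ _ _ _ _ _ _ hqA x hx W hW
  -- the level-`M` elements
  set jM : ModelField K₁ M :=
    ⟨coeffEmb K₁ jq, coeffEmb_mem_laurentBaseChange K₁ (jq_mem_full' M)⟩ with hjM
  set HM : ModelField K₁ M := ⟨h4S K₁, h4S_mem_laurentBaseChange K₁ M h4⟩ with hHM
  have hrelM : jM * HM ^ 4 * (HM + 16) = (HM ^ 2 + 256 * HM + 4096) ^ 3 := by
    apply (IntermediateField.val (laurentBaseChange K₁ (modularFunctionFieldFull M))).injective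
    simp only [map_mul, map_pow, map_add, map_ofNat]
    show coeffEmb K₁ jq * h4S K₁ ^ 4 * (h4S K₁ + 16) = (h4S K₁ ^ 2 + 256 * h4S K₁ + 4096) ^ 3
    rw [Fermat.Agent.H27.KLGB.coeffEmb_jq]
    exact h4S_j (k := K₁)
  have hHM0 : HM ≠ 0 := fun h => h4S_ne_zero (k := K₁) (congrArg Subtype.val h)
  have hHM16 : HM + 16 ≠ 0 := by
    intro h
    apply h4S_add_sixteen_ne_zero K₁
    have := congrArg
      (IntermediateField.val (laurentBaseChange K₁ (modularFunctionFieldFull M))) h
    simp only [map_add, map_ofNat, map_zero] at this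
    exact this
  -- the level-`M q` elements
  set H : ModelField K₁ (M * q) := heckeAlphaBar K₁ M q HM with hH
  set Hq : ModelField K₁ (M * q) := heckeBetaBar K₁ M q HM with hHq
  set xq : ModelField K₁ (M * q) := heckeBetaBar K₁ M q jM with hxq
  have hxα : x = heckeAlphaBar K₁ M q jM := Subtype.ext (by rw [hx, coe_heckeAlphaBar])
  have hrel : x * H ^ 4 * (H + 16) = (H ^ 2 + 256 * H + 4096) ^ 3 := by
    have := congrArg (heckeAlphaBar K₁ M q) hrelM
    simp only [map_mul, map_pow, map_add, map_ofNat] at this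
    rw [hxα]
    exact this
  have hrelq : xq * Hq ^ 4 * (Hq + 16) = (Hq ^ 2 + 256 * Hq + 4096) ^ 3 := by
    have := congrArg (heckeBetaBar K₁ M q) hrelM
    simp only [map_mul, map_pow, map_add, map_ofNat] at this
    exact this
  have hH0 : H ≠ 0 := (map_ne_zero (heckeAlphaBar K₁ M q)).mpr hHM0
  have hHq0 : Hq ≠ 0 := (map_ne_zero (heckeBetaBar K₁ M q)).mpr hHM0
  have hH16 : H + 16 ≠ 0 := by
    have := (map_ne_zero (heckeAlphaBar K₁ M q)).mpr hHM16
    rwa [map_add, map_ofNat] at this
  have hHq16 : Hq + 16 ≠ 0 := by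
    have := (map_ne_zero (heckeBetaBar K₁ M q)).mpr hHM16
    rwa [map_add, map_ofNat] at this
  -- membership in `B(x)` is integrality over `A₀[x]`
  have hmem : ∀ z : ModelField K₁ (M * q), z ∈ chartClosure A₀ (ModelField K₁ (M * q)) x ↔
      IsIntegral ↥(chartRing A₀ (ModelField K₁ (M * q)) x) z := by
    intro z
    unfold chartClosure
    rw [Subalgebra.mem_restrictScalars, mem_integralClosure_iff]
  have hxint : IsIntegral ↥(chartRing A₀ (ModelField K₁ (M * q)) x) x := by
    have : x = algebraMap ↥(chartRing A₀ (ModelField K₁ (M * q)) x) (ModelField K₁ (M * q))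
        ⟨x, Algebra.self_mem_adjoin_singleton A₀ x⟩ := rfl
    rw [this]
    exact isIntegral_algebraMap
  have hxqint : IsIntegral ↥(chartRing A₀ (ModelField K₁ (M * q)) x) xq := by
    rw [← hmem, Fermat.Agent.H87.KL.mem_chartClosure_iff]
    refine Fermat.Agent.H66.SS.smi_gen x hx xq q ?_
    rw [hxq, coe_heckeBetaBar]
    show qExpand K₁ q (coeffEmb K₁ jq) = _
    rw [Fermat.Agent.H27.KLGB.coeffEmb_jq]
  -- `2` is a unit of `A₀`
  have h2 : IsUnit (((2 ^ 20 : ℕ) : ℕ) : A₀) := by
    apply Fermat.Agent.H2.klbr_isUnit_natCast_of_coprime hqA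
    apply Nat.Coprime.pow_left
    rw [Nat.coprime_primes Nat.prime_two hq]
    exact fun h => hq2 h.symm
  obtain ⟨c₀, hc₀⟩ := h2.exists_left_inv
  have hc : algebraMap A₀ ↥(chartRing A₀ (ModelField K₁ (M * q)) x) c₀ * 2 ^ 20 = 1 := by
    have := congrArg (algebraMap A₀ ↥(chartRing A₀ (ModelField K₁ (M * q)) x)) hc₀
    rw [map_mul, map_one] at this
    rw [← this]
    congr 1
    rw [map_natCast]
    push_cast
    norm_num
  obtain ⟨hHint, u, huint, hu⟩ := isIntegral_haupt_unit _ hc x H hxint hH0 hH16 hrel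
  obtain ⟨hHqint, uq, huqint, huq⟩ := isIntegral_haupt_unit _ hc xq Hq hxqint hHq0 hHq16 hrelq
  refine ⟨?_, H, Hq, u, uq, ?_, ?_, (hmem H).2 hHint, (hmem Hq).2 hHqint, (hmem u).2 huint,
    (hmem uq).2 huqint, hu, huq, hW.1 HM, hW.2 HM⟩
  · -- `W` preserves `B(x)`
    intro s hs
    rw [hmem] at hs ⊢
    obtain ⟨p, hp, hps⟩ := hs
    have hWx : W x = xq := by rw [hxα, hW.1]
    have hWa : ∀ a : A₀, W (algebraMap A₀ (ModelField K₁ (M * q)) a) =
        algebraMap A₀ (ModelField K₁ (M * q)) a := by
      intro a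
      rw [IsScalarTower.algebraMap_apply A₀ K₁ (ModelField K₁ (M * q)), W.commutes]
    have hWR : ∀ r : ↥(chartRing A₀ (ModelField K₁ (M * q)) x),
        IsIntegral ↥(chartRing A₀ (ModelField K₁ (M * q)) x) (W (r : ModelField K₁ (M * q))) := by
      rintro ⟨r, hr⟩
      show IsIntegral ↥(chartRing A₀ (ModelField K₁ (M * q)) x) (W r)
      unfold chartRing at hr
      induction hr using Algebra.adjoin_induction with
      | mem z hz =>
        rw [Set.mem_singleton_iff] at hz
        subst hz
        rw [hWx]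
        exact hxqint
      | algebraMap a =>
        rw [hWa]
        have : algebraMap A₀ (ModelField K₁ (M * q)) a =
            algebraMap ↥(chartRing A₀ (ModelField K₁ (M * q)) x) (ModelField K₁ (M * q))
              (algebraMap A₀ ↥(chartRing A₀ (ModelField K₁ (M * q)) x) a) := rfl
        rw [this]
        exact isIntegral_algebraMap
      | add a b _ _ ha hb =>
        rw [map_add]
        exact ha.add hb
      | mul a b _ _ ha hb =>
        rw [map_mul]
        exact ha.mul hb
    set φ : ↥(chartRing A₀ (ModelField K₁ (M * q)) x) →+*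
        ↥(integralClosure ↥(chartRing A₀ (ModelField K₁ (M * q)) x) (ModelField K₁ (M * q))) :=
      RingHom.codRestrict
        ((W : ModelField K₁ (M * q) →+* ModelField K₁ (M * q)).comp
          (algebraMap ↥(chartRing A₀ (ModelField K₁ (M * q)) x) (ModelField K₁ (M * q))))
        (integralClosure ↥(chartRing A₀ (ModelField K₁ (M * q)) x)
          (ModelField K₁ (M * q))).toSubring
        (fun r => hWR r) with hφ
    refine isIntegral_of_monic_root (W s) (p.map φ) (hp.map φ) ?_
    rw [eval₂_map]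
    have hcomp : (algebraMap
        ↥(integralClosure ↥(chartRing A₀ (ModelField K₁ (M * q)) x) (ModelField K₁ (M * q)))
        (ModelField K₁ (M * q))).comp φ =
        (W : ModelField K₁ (M * q) →+* ModelField K₁ (M * q)).comp
          (algebraMap ↥(chartRing A₀ (ModelField K₁ (M * q)) x) (ModelField K₁ (M * q))) := rfl
    rw [hcomp]
    have h3 := Polynomial.hom_eval₂ p
      (algebraMap ↥(chartRing A₀ (ModelField K₁ (M * q)) x) (ModelField K₁ (M * q)))
      (W : ModelField K₁ (M * q) →+* ModelField K₁ (M * q)) s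
    rw [hps, map_zero] at h3
    exact h3.symm
  · rw [hH, coe_heckeAlphaBar]
  · rw [hHq, coe_heckeBetaBar]

end Fermat.Agent.H48.SSHaupt
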